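import Fermat.Agent.S16.Interface

set_option autoImplicit false

noncomputable section

namespace Fermat.Agent.S16

open UpperHalfPlane ModularForm CongruenceSubgroup PowerSeries
open scoped MatrixGroups ModularForm Manifold

/-! ### Formal.lean -/
section Formal
variable {R S : Type*} [CommRing R] [CommRing S]

@[simp] theorem coeff_psU (p n : ℕ) (A : PowerSeries R) : coeff n (psU p A) = coeff (n * p) A := sorry
@[simp] theorem coeff_psV (p n : ℕ) (A : PowerSeries R) :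
    coeff n (psV p A) = if p ∣ n then coeff (n / p) A else 0 := sorry
theorem psU_add (p : ℕ) (A B : PowerSeries R) : psU p (A + B) = psU p A + psU p B := sorry
theorem psU_sub (p : ℕ) (A B : PowerSeries R) : psU p (A - B) = psU p A - psU p B := sorry
theorem psU_neg (p : ℕ) (A : PowerSeries R) : psU p (-A) = -psU p A := sorry
theorem psU_smul (p : ℕ) (c : R) (A : PowerSeries R) : psU p (c • A) = c • psU p A := sorry
theorem psU_C_mul (p : ℕ) (c : R) (A : PowerSeries R) : psU p (C c * A) = C c * psU p A := sorry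
theorem psU_C {p : ℕ} (hp : p ≠ 0) (c : R) : psU p (C c : PowerSeries R) = C c := sorry
theorem psV_add (p : ℕ) (A B : PowerSeries R) : psV p (A + B) = psV p A + psV p B := sorry
theorem psV_sub (p : ℕ) (A B : PowerSeries R) : psV p (A - B) = psV p A - psV p B := sorry
theorem psV_neg (p : ℕ) (A : PowerSeries R) : psV p (-A) = -psV p A := sorry
theorem psV_smul (p : ℕ) (c : R) (A : PowerSeries R) : psV p (c • A) = c • psV p A := sorry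
theorem psV_C {p : ℕ} (hp : p ≠ 0) (c : R) : psV p (C c : PowerSeries R) = C c := sorry
theorem psV_one {p : ℕ} (hp : p ≠ 0) : psV p (1 : PowerSeries R) = 1 := sorry
theorem psV_mul {p : ℕ} (hp : p ≠ 0) (A B : PowerSeries R) : psV p (A * B) = psV p A * psV p B := sorry
theorem psV_pow {p : ℕ} (hp : p ≠ 0) (A : PowerSeries R) (r : ℕ) : psV p (A ^ r) = psV p A ^ r := sorry
theorem psU_psV {p : ℕ} (hp : p ≠ 0) (A : PowerSeries R) : psU p (psV p A) = A := sorry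
theorem psU_psV_mul {p : ℕ} (hp : p ≠ 0) (A B : PowerSeries R) :
    psU p (psV p A * B) = A * psU p B := sorry
theorem map_psU (f : R →+* S) (p : ℕ) (A : PowerSeries R) :
    PowerSeries.map f (psU p A) = psU p (PowerSeries.map f A) := sorry
theorem map_psV (f : R →+* S) (p : ℕ) (A : PowerSeries R) :
    PowerSeries.map f (psV p A) = psV p (PowerSeries.map f A) := sorry
theorem intCast_dvd_iff (d : ℤ) (A : PowerSeries ℤ) :
    (d : PowerSeries ℤ) ∣ A ↔ ∀ n, d ∣ coeff n A := sorry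
theorem dvd_psU {d : ℤ} {A : PowerSeries ℤ} (p : ℕ) (h : (d : PowerSeries ℤ) ∣ A) :
    (d : PowerSeries ℤ) ∣ psU p A := sorry
theorem dvd_psV {d : ℤ} {A : PowerSeries ℤ} (p : ℕ) (h : (d : PowerSeries ℤ) ∣ A) :
    (d : PowerSeries ℤ) ∣ psV p A := sorry
theorem toC_injective : Function.Injective toC := sorry
/-- Frobenius: `A ^ (ℓ ^ v) ≡ V_{ℓ^v} A mod ℓ`. -/
theorem frobenius_dvd (ℓ : ℕ) [Fact ℓ.Prime] (A : PowerSeries ℤ) (v : ℕ) :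
    ((ℓ : ℤ) : PowerSeries ℤ) ∣ A ^ (ℓ ^ v) - psV (ℓ ^ v) A := sorry
/-- `A ≡ B mod ℓ ⇒ A ^ (ℓ ^ v) ≡ B ^ (ℓ ^ v) mod ℓ ^ (v + 1)`. -/
theorem pow_lift (ℓ : ℕ) {A B : PowerSeries ℤ} (h : ((ℓ : ℤ) : PowerSeries ℤ) ∣ A - B) (v : ℕ) :
    (((ℓ : ℤ) ^ (v + 1) : ℤ) : PowerSeries ℤ) ∣ A ^ (ℓ ^ v) - B ^ (ℓ ^ v) := sorry
end Formal

/-! ### SigmaP.lean -/
section SigmaP
variable (p : ℕ) [Fact p.Prime]
theorem sigP_zero : sigP p 0 = 0 := sorry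
theorem sigP_one : sigP p 1 = 1 := sorry
theorem sigP_mul_self (k : ℕ) : sigP p (k * p) = sigP p k := sorry
theorem sigP_hecke {l : ℕ} (hl : l.Prime) (hlp : l ≠ p) (k : ℕ) :
    sigP p (k * l) + (if l ∣ k then l * sigP p (k / l) else 0) = (1 + l) * sigP p k := sorry
theorem sigP_eq_sigma (k : ℕ) : (sigP p k : ℤ) =
    (ArithmeticFunction.sigma 1 k : ℤ) - p * (if p ∣ k then (ArithmeticFunction.sigma 1 (k / p) : ℤ) else 0) := sorry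
theorem sigP_two (hp : 5 ≤ p) : sigP p 2 = 3 := sorry
theorem sigP_self : sigP p p = 1 := sorry
theorem psU_deltaZ : psU p (deltaZ p) = deltaZ p := sorry
theorem psU_EisQ : psU p (EisQ p) = EisQ p := sorry
/-- `d^3 ≡ d^5 mod 12` summed over divisors. -/
theorem sigma_three_five (k : ℕ) : (12 : ℤ) ∣ (ArithmeticFunction.sigma 5 k : ℤ) - ArithmeticFunction.sigma 3 k := sorry
/-- formal discriminant. -/
theorem exists_deltaSeries : ∃ D : PowerSeries ℤ, 1728 * D = E4Z ^ 3 - E6Z ^ 2 ∧ coeff 0 D = 0 ∧ coeff 1 D = 1 := sorry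
end SigmaP

/-! ### analytic layer -/
section Analytic
variable (p : ℕ) [Fact p.Prime]

theorem coset_cases (γ : SL(2, ℤ)) : γ ∈ Gamma0 p ∨
    ∃ δ ∈ Gamma0 p, ∃ j : ℕ, j < p ∧ γ = δ * ModularGroup.S * ModularGroup.T ^ j := sorry

theorem exists_modularForm_of (k : ℤ) (F : ℍ → ℂ) (hinv : ∀ γ ∈ Gamma0 p, F ∣[k] γ = F)
    (hhol : MDiff F) (hb : IsBoundedAtImInfty F)
    (hbS : IsBoundedAtImInfty (F ∣[k] ModularGroup.S)) :
    ∃ G : ModularForm (Gamma0 p) k, (G : ℍ → ℂ) = F := sorry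

theorem exists_cuspForm_of (k : ℤ) (F : ℍ → ℂ) (hinv : ∀ γ ∈ Gamma0 p, F ∣[k] γ = F)
    (hhol : MDiff F) (hb : IsZeroAtImInfty F)
    (hbS : IsZeroAtImInfty (F ∣[k] ModularGroup.S)) :
    ∃ G : CuspForm (Gamma0 p) k, (G : ℍ → ℂ) = F := sorry

theorem sharp_apply (k : ℤ) (F : ℍ → ℂ) (z : ℍ) :
    sharp p k F z = ((p : ℂ) * z) ^ (-k) * F (frickeGL p • z) := sorry

theorem coe_frickeGL_smul (z : ℍ) : ((frickeGL p • z : ℍ) : ℂ) = -1 / ((p : ℂ) * z) := sorry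

theorem exists_sharp {k : ℤ} (F : ModularForm (Gamma0 p) k) :
    ∃ G : ModularForm (Gamma0 p) k, (G : ℍ → ℂ) = sharp p k F := sorry

theorem sharp_sharp (k : ℤ) (F : ℍ → ℂ) :
    sharp p k (sharp p k F) = ((-(p : ℂ)) ^ (-k)) • F := sorry

theorem IsPair.swap {k : ℤ} {A B : PowerSeries ℂ} (h : IsPair p k A B) :
    IsPair p k B (((-(p : ℂ)) ^ (-k)) • A) := sorry

theorem exists_isPair {k : ℤ} (F : ModularForm (Gamma0 p) k) :
    ∃ B, IsPair p k (qExpansion 1 F) B := sorry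

theorem exists_cuspForm_of_coeff_zero (F : ModularForm (Gamma0 p) 2)
    (h0 : coeff 0 (qExpansion 1 F) = 0) : ∃ f : CuspForm (Gamma0 p) 2, (f : ℍ → ℂ) = F := sorry

theorem exists_eisForm : ∃ F : ModularForm (Gamma0 p) 2, qExpansion 1 F = EisQ p := sorry

theorem levelOneCalc : LevelOneCalc := sorry
theorem pairCalc : PairCalc p := sorry

end Analytic

/-! ### UB -/
section UB
variable (p : ℕ) [Fact p.Prime]

/-- UB/PairLemmas -/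
theorem levelOne_of_pair (hP : PairCalc p) (hL : LevelOneCalc) {w : ℤ} {X X' : PowerSeries ℤ} {a b : ℂ}
    (h : IsPair p w (a • toC X) (b • toC X')) (ha : a ≠ 0) (r N : ℕ) (ε : ℤ)
    (hrel : (p : ℂ) ^ (N + 1) * b ^ r = ε * a ^ r) :
    IsLevelOne (r * w) (toC ((p : PowerSeries ℤ) ^ N * X ^ r + C ε * psU p (X' ^ r))) := sorry

/-- the pair attached to `D = 24 (E - f)`, `f = δ + m φ₀`. -/
theorem isPair_D (hP : PairCalc p) (f : CuspForm (Gamma0 p) 2) (m : ℤ) (φ₀ : PowerSeries ℤ)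
    (hf : qExpansion 1 f = toC (deltaZ p + C m * φ₀)) :
    IsPair p 2 (toC (C ((p : ℤ) - 1) - C (24 * m) * φ₀))
      ((-(p : ℂ)⁻¹) • toC (C ((p : ℤ) - 1) - C (24 * m) * psU p φ₀)) := sorry

/-- UB/KIdentity -/
theorem K_identity (hP : PairCalc p) (hL : LevelOneCalc) (f : CuspForm (Gamma0 p) 2) (m : ℤ)
    (φ₀ : PowerSeries ℤ) (hf : qExpansion 1 f = toC (deltaZ p + C m * φ₀)) :
    ∃ ψ : PowerSeries ℤ, C ((p : ℤ) ^ 2 - 1) * (deltaZ p - C (10 * ((p : ℤ) - 1)) * sigZ 3 - C m * φ₀)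
      = C (24 * m) * ψ := sorry

theorem dvd_of_K (hp : 5 ≤ p) (m : ℤ) (φ₀ ψ : PowerSeries ℤ)
    (h : C ((p : ℤ) ^ 2 - 1) * (deltaZ p - C (10 * ((p : ℤ) - 1)) * sigZ 3 - C m * φ₀)
      = C (24 * m) * ψ) : 24 * m ∣ (p : ℤ) ^ 2 - 1 := sorry

/-- UB/Engine -/
theorem engine (hL : LevelOneCalc) (l : ℕ) [Fact l.Prime] (v w N : ℕ) (hw : w < 12) (ε : ℤ)
    (X X' ζ : PowerSeries ℤ)
    (hlev : IsLevelOne ((l ^ v : ℕ) * (w : ℤ))
      (toC ((p : PowerSeries ℤ) ^ N * X ^ (l ^ v) + C ε * psU p (X' ^ (l ^ v)))))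
    (hX : ((l : ℤ) : PowerSeries ℤ) ∣ X - ζ) (hX' : ((l : ℤ) : PowerSeries ℤ) ∣ X' - psV p ζ)
    (hκ1 : (l : ℤ) ^ v ∣ (p : ℤ) ^ N + ε) (hκ2 : ¬ (l : ℤ) ^ (v + 1) ∣ (p : ℤ) ^ N + ε)
    (hζ0 : coeff 0 ζ = 0) (hζ1 : ¬ (l : ℤ) ∣ coeff 1 ζ) : False := sorry

/-- UB/Arith -/
theorem val_odd (l : ℕ) [Fact l.Prime] (hl : l ≠ 2) (v : ℕ) (hv1 : (l : ℤ) ^ v ∣ (p : ℤ) + 1)
    (hv2 : ¬ (l : ℤ) ^ (v + 1) ∣ (p : ℤ) + 1) (hv : 1 ≤ v) :
    (l : ℤ) ^ v ∣ (p : ℤ) ^ (l ^ v - 1) + (-1) ∧ ¬ (l : ℤ) ^ (v + 1) ∣ (p : ℤ) ^ (l ^ v - 1) + (-1) := sorry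

theorem val_two (v : ℕ) (hv1 : (2 : ℤ) ^ v ∣ (p : ℤ) + 1) (hv2 : ¬ (2 : ℤ) ^ (v + 1) ∣ (p : ℤ) + 1) :
    (2 : ℤ) ^ v ∣ (p : ℤ) ^ (4 * 2 ^ v - 1) + 1 ∧ ¬ (2 : ℤ) ^ (v + 1) ∣ (p : ℤ) ^ (4 * 2 ^ v - 1) + 1 := sorry

theorem arith_final (hp : 5 ≤ p) (m : ℕ) (hm : 0 < m) (h24 : 24 * (m : ℤ) ∣ (p : ℤ) ^ 2 - 1)
    (h5 : ∀ l : ℕ, l.Prime → 5 ≤ l → l ∣ m → ¬ l ∣ p + 1)
    (h3 : 3 ∣ m → ¬ 9 ∣ p + 1) (h2 : 2 ∣ m → ¬ 8 ∣ p + 1) :
    m ∣ ModularCurve.eisensteinNumerator p := sorry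

/-- UB/CaseGe5, Case3, Case2 -/
theorem case_ge5 (hP : PairCalc p) (hL : LevelOneCalc) (hp : 5 ≤ p) (l : ℕ) [Fact l.Prime] (hl : 5 ≤ l)
    (hlp : l ∣ p + 1) (f : CuspForm (Gamma0 p) 2) (φ₀ : PowerSeries ℤ)
    (hf : qExpansion 1 f = toC (deltaZ p + C (l : ℤ) * φ₀)) : False := sorry

theorem case_three (hP : PairCalc p) (hL : LevelOneCalc) (hp : 5 ≤ p) (h9 : 9 ∣ p + 1)
    (f : CuspForm (Gamma0 p) 2) (φ₀ : PowerSeries ℤ)
    (hf : qExpansion 1 f = toC (deltaZ p + C 3 * φ₀)) : False := sorry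

theorem case_two (hP : PairCalc p) (hL : LevelOneCalc) (hp : 5 ≤ p) (h8 : 8 ∣ p + 1)
    (f : CuspForm (Gamma0 p) 2) (φ₀ : PowerSeries ℤ)
    (hf : qExpansion 1 f = toC (deltaZ p + C 2 * φ₀)) : False := sorry

/-- UB/ClaimA -/
theorem claimA (hP : PairCalc p) (hL : LevelOneCalc) (hp : 5 ≤ p) (m : ℕ)
    (f : CuspForm (Gamma0 p) 2)
    (hf : ∀ k, 1 ≤ k → ∃ a : ℤ, ModularFormClass.qCoeff f k = a ∧ (m : ℤ) ∣ a - sigP p k) :
    m ∣ ModularCurve.eisensteinNumerator p := sorry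

end UB

/-! ### LB -/
section LB
variable (p : ℕ) [Fact p.Prime]

theorem lower_form (hp : 5 ≤ p)
    (hθ : ∃ G : ModularForm (Gamma0 p) 2, coeff 0 (qExpansion 1 G) = 1 ∧
      ∀ n, 1 ≤ n → ∃ c : ℤ, coeff n (qExpansion 1 G) = 2 * (c : ℂ)) :
    ∃ f ∈ CuspForm.intLattice p 2, ∃ c : ℤ, IsCoprime c (ModularCurve.eisensteinNumerator p : ℤ) ∧
      ∀ k, 1 ≤ k → ∃ a : ℤ, ModularFormClass.qCoeff f k = a ∧
        (ModularCurve.eisensteinNumerator p : ℤ) ∣ a - c * sigP p k := sorry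

theorem intLattice_eq_bot_of_le_three (hp : p ≤ 3) : CuspForm.intLattice p 2 = ⊥ := sorry

end LB

end Fermat.Agent.S16
end
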