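import Fermat.Agent.S16.CardAlgebra

set_option autoImplicit false

noncomputable section

namespace Fermat.Agent.S16

open UpperHalfPlane ModularForm CongruenceSubgroup PowerSeries ModularCurve CuspForm
open scoped MatrixGroups ModularForm Manifold

variable (p : ℕ) [Fact p.Prime]

/-! ### Alg/Coeff.lean -/

theorem mem_intLattice_iff (f : CuspForm (Gamma0 p) 2) :
    f ∈ intLattice p 2 ↔ ∀ n : ℕ, ∃ m : ℤ, ModularFormClass.qCoeff f n = (m : ℂ) := sorry

theorem qCoeff_add (f g : CuspForm (Gamma0 p) 2) (n : ℕ) :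
    ModularFormClass.qCoeff (f + g : CuspForm (Gamma0 p) 2) n =
      ModularFormClass.qCoeff f n + ModularFormClass.qCoeff g n := sorry

theorem qCoeff_smul (c : ℂ) (f : CuspForm (Gamma0 p) 2) (n : ℕ) :
    ModularFormClass.qCoeff (c • f : CuspForm (Gamma0 p) 2) n = c * ModularFormClass.qCoeff f n := sorry

theorem qCoeff_zsmul (c : ℤ) (f : CuspForm (Gamma0 p) 2) (n : ℕ) :
    ModularFormClass.qCoeff (c • f : CuspForm (Gamma0 p) 2) n = c * ModularFormClass.qCoeff f n := sorry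

theorem qCoeff_zero_eq (f : CuspForm (Gamma0 p) 2) : ModularFormClass.qCoeff f 0 = 0 := sorry

theorem eq_zero_of_qCoeff (f : CuspForm (Gamma0 p) 2)
    (h : ∀ n, 1 ≤ n → ModularFormClass.qCoeff f n = 0) : f = 0 := sorry

theorem qCoeff_actC_gen_ne (l : Nat.Primes) (hl : (l : ℕ) ≠ p) (f : CuspForm (Gamma0 p) 2) (n : ℕ) :
    ModularFormClass.qCoeff (actC p (heckeGen l) f) n =
      ModularFormClass.qCoeff f (n * l) +
        if (l : ℕ) ∣ n then (l : ℂ) * ModularFormClass.qCoeff f (n / l) else 0 := sorry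

theorem qCoeff_actC_gen_self (l : Nat.Primes) (hl : (l : ℕ) = p) (f : CuspForm (Gamma0 p) 2) (n : ℕ) :
    ModularFormClass.qCoeff (actC p (heckeGen l) f) n = ModularFormClass.qCoeff f (n * p) := sorry

/-! ### Alg/Tau.lean -/

theorem exists_tau (k : ℕ) (hk : 1 ≤ k) : ∃ τ : HeckeAlg,
    (∀ f : CuspForm (Gamma0 p) 2, ModularFormClass.qCoeff (actC p τ f) 1 = ModularFormClass.qCoeff f k) ∧
      eis p τ = sigP p k := sorry

/-! ### Alg/LowerInduction.lean -/

theorem lb_of_form (n : ℕ) (f : CuspForm (Gamma0 p) 2) (hf : f ∈ intLattice p 2) (c : ℤ)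
    (hc : IsCoprime c (n : ℤ))
    (h : ∀ k, 1 ≤ k → ∃ a : ℤ, ModularFormClass.qCoeff f k = a ∧ (n : ℤ) ∣ a - c * sigP p k)
    (t : HeckeAlg) (ht : ∀ g ∈ intLattice p 2, actC p t g = 0) : (n : ℤ) ∣ eis p t := sorry

/-! ### Alg/Duality.lean -/

theorem exists_form_of_functional (lam : ↥(heckeLatticeAlgebra p ∅) →ₗ[ℤ] ℤ) :
    ∃ f : Lat p, ∀ t : HeckeAlg, coeffC (act p t f) 1 = (lam (phi p t) : ℂ) := sorry

/-! ### Alg/Congruent.lean -/

theorem exists_congruent_form (m : ℕ)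
    (hm : ∀ t : HeckeAlg, (∀ f ∈ intLattice p 2, actC p t f = 0) → (m : ℤ) ∣ eis p t) :
    ∃ f ∈ intLattice p 2, ∀ k, 1 ≤ k → ∃ a : ℤ, ModularFormClass.qCoeff f k = a ∧
      (m : ℤ) ∣ a - sigP p k := sorry

end Fermat.Agent.S16
end
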